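/-
S13, package LC-(III) (helper61): at a valuation subring `A` of `ℚ̄` over `p`, the `p`-torsion of
a Weierstrass curve over `ℚ` cannot lie entirely in the kernel of reduction `E₁(A)` when there is
a Galois-stable submodule `N` with `N ≠ ⊥`, `N ≠ ⊤`.

Abstract form: finiteness of the `p`-torsion and the product bound (package T2) are hypotheses.
-/
import Mathlib
import Fermat.Prelude.Def_FLTPrelim_GaloisRep
import Fermat.Prelude.Def_FLTPrelim_Ramification
import Fermat.Agent.S05.H60.M3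
import Fermat.Agent.S05.AddSub

set_option autoImplicit false

namespace Fermat.Agent.S13.H61

open WeierstrassCurve WeierstrassCurve.Affine WeierstrassCurve.Affine.Point
open Fermat.Agent.S05 (xOf xOf_eq_iff)

/-! ### Generalities -/

/-- A nonempty product of elements `> 1` of a linearly ordered commutative group with zero is
`> 1`. -/
lemma one_lt_prod_of_one_lt {Γ : Type*} [LinearOrderedCommGroupWithZero Γ] {ι : Type*}
    (s : Finset ι) (f : ι → Γ) (h : ∀ i ∈ s, 1 < f i) (hne : s.Nonempty) :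
    1 < ∏ i ∈ s, f i := by
  classical
  induction hne using Finset.Nonempty.cons_induction with
  | singleton a => simpa using h a (Finset.mem_singleton_self a)
  | cons a s ha hs ih =>
    rw [Finset.prod_cons]
    have h1 : 1 < f a := h a (Finset.mem_cons_self a s)
    have h2 : 1 < ∏ i ∈ s, f i := ih fun i hi => h i (Finset.mem_cons_of_mem hi)
    calc (1 : Γ) < f a := h1
      _ = f a * 1 := (mul_one _).symm
      _ ≤ f a * ∏ i ∈ s, f i := by gcongr

/-- `AlgebraicClosure ℚ` is Galois over `ℚ` for the default `ℚ`-algebra structure. -/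
theorem isGalois_rat_algebraicClosure : IsGalois ℚ (AlgebraicClosure ℚ) := by
  have h : (DivisionRing.toRatAlgebra : Algebra ℚ (AlgebraicClosure ℚ)) =
      AlgebraicClosure.instAlgebra ℚ := Subsingleton.elim _ _
  rw [h]
  infer_instance

/-- An element of `ℚ̄` fixed by the whole Galois group is rational. -/
theorem exists_rat_of_fixed (z : AlgebraicClosure ℚ)
    (h : ∀ σ : AlgebraicClosure ℚ ≃ₐ[ℚ] AlgebraicClosure ℚ, σ z = z) :
    ∃ r : ℚ, algebraMap ℚ (AlgebraicClosure ℚ) r = z := by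
  have := isGalois_rat_algebraicClosure
  have h1 := (InfiniteGalois.mem_bot_iff_fixed (k := ℚ) (K := AlgebraicClosure ℚ) z).mpr h
  exact IntermediateField.mem_bot.mp h1

/-- The valuation of a natural number at a valuation subring over `p` is a power of `v(p)`. -/
lemma val_natCast_eq_pow {L : Type*} [Field L] (A : ValuationSubring L) {p : ℕ} (hp : p.Prime)
    (hpA : (p : L) ∈ A.nonunits) {n : ℕ} (hn : n ≠ 0) :
    ∃ e : ℕ, A.valuation (n : L) = A.valuation (p : L) ^ e := by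
  obtain ⟨e, n', hn', rfl⟩ := Nat.exists_eq_pow_mul_and_not_dvd hn p hp.ne_one
  refine ⟨e, ?_⟩
  have hpv : A.valuation (p : L) < 1 := A.mem_nonunits_iff.mp hpA
  have h1 : A.valuation (n' : L) = 1 := by
    refine le_antisymm ((A.valuation_le_one_iff _).mpr (natCast_mem A n')) (not_lt.mp fun hlt => ?_)
    have hcop : IsCoprime (p : ℤ) (n' : ℤ) :=
      (Nat.prime_iff_prime_int.mp hp).coprime_iff_not_dvd.mpr (by exact_mod_cast hn')
    obtain ⟨u, v, huv⟩ := hcop
    have e1 : (u : L) * (p : L) + (v : L) * (n' : L) = 1 := by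
      exact_mod_cast congrArg (Int.cast : ℤ → L) huv
    have hu : A.valuation (u : L) ≤ 1 := (A.valuation_le_one_iff _).mpr (intCast_mem A u)
    have hv : A.valuation (v : L) ≤ 1 := (A.valuation_le_one_iff _).mpr (intCast_mem A v)
    have h2 : A.valuation ((u : L) * (p : L)) < 1 := by
      rw [map_mul]
      calc A.valuation (u : L) * A.valuation (p : L) ≤ 1 * A.valuation (p : L) := by gcongr
        _ < 1 := by rwa [one_mul]
    have h3 : A.valuation ((v : L) * (n' : L)) < 1 := by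
      rw [map_mul]
      calc A.valuation (v : L) * A.valuation (n' : L) ≤ 1 * A.valuation (n' : L) := by gcongr
        _ < 1 := by rwa [one_mul]
    have h4 := A.valuation.map_add_lt h2 h3
    rw [e1, map_one] at h4
    exact lt_irrefl _ h4
  push_cast
  rw [map_mul, map_pow, h1, mul_one]

/-- A rational number of valuation `> 1` at a valuation subring over `p` has valuation at least
`v(p)⁻¹`. -/
theorem one_le_val_rat_mul {L : Type*} [Field L] [Algebra ℚ L] (A : ValuationSubring L) {p : ℕ}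
    (hp : p.Prime) (hpA : (p : L) ∈ A.nonunits) (r : ℚ)
    (hr : 1 < A.valuation (algebraMap ℚ L r)) :
    1 ≤ A.valuation (algebraMap ℚ L r) * A.valuation (p : L) := by
  have hpv : A.valuation (p : L) < 1 := A.mem_nonunits_iff.mp hpA
  have hr0 : r ≠ 0 := by
    rintro rfl
    rw [_root_.map_zero, _root_.map_zero] at hr
    exact not_lt_of_ge zero_le hr
  have hp0 : (p : L) ≠ 0 := by
    intro h0
    -- then `algebraMap r` has valuation `≤ 1`: every rational is a quotient of integers, and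
    -- the denominators are invertible only if nonzero; we argue via the valuation directly
    have hden : (r.den : L) ≠ 0 := by
      intro hd
      have : A.valuation (algebraMap ℚ L r) = 0 := by
        have e : algebraMap ℚ L r = (r.num : L) / (r.den : L) := by
          conv_lhs => rw [← Rat.num_div_den r]
          rw [map_div₀, map_intCast, map_natCast]
        rw [e, hd, div_zero, _root_.map_zero]
      rw [this] at hr
      exact not_lt_of_ge zero_le hr
    -- characteristic `p`: contradiction with the `ℚ`-algebra structure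
    have : (algebraMap ℚ L (p : ℚ)) = 0 := by rw [map_natCast]; exact h0
    have hp' : (p : ℚ) = 0 := (algebraMap ℚ L).injective (by rw [this, _root_.map_zero])
    exact hp.ne_zero (by exact_mod_cast hp')
  have hπ0 : 0 < A.valuation (p : L) := (Valuation.pos_iff _).mpr hp0
  obtain ⟨a, ha⟩ := val_natCast_eq_pow A hp hpA (n := r.num.natAbs)
    (Int.natAbs_ne_zero.mpr (Rat.num_ne_zero.mpr hr0))
  obtain ⟨b, hb⟩ := val_natCast_eq_pow A hp hpA (n := r.den) r.den_ne_zero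
  have hnum : A.valuation ((r.num : ℤ) : L) = A.valuation (p : L) ^ a := by
    rw [← ha]
    rcases Int.natAbs_eq r.num with h | h
    · conv_lhs => rw [h]
      simp
    · conv_lhs => rw [h]
      simp
  have e : algebraMap ℚ L r = (r.num : L) / (r.den : L) := by
    conv_lhs => rw [← Rat.num_div_den r]
    rw [map_div₀, map_intCast, map_natCast]
  rw [e, map_div₀, hnum, hb] at hr ⊢
  set π := A.valuation (p : L) with hπ
  have hπb : 0 < π ^ b := pow_pos hπ0 b
  have hlt : π ^ b < π ^ a := by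
    rwa [lt_div_iff₀ hπb, one_mul] at hr
  have hab : a + 1 ≤ b := by
    by_contra hcon
    have hba : b ≤ a := by omega
    exact not_le_of_gt hlt (pow_le_pow_right_of_le_one' hpv.le hba)
  have h2 : π ^ b ≤ π ^ (a + 1) := pow_le_pow_right_of_le_one' hpv.le hab
  rw [div_mul_eq_mul_div, le_div_iff₀ hπb, one_mul, ← pow_succ]
  exact h2

/-- The Galois action on `x`-coordinates. -/
lemma xOf_smul (W₀ : Affine ℚ) (σ : AlgebraicClosure ℚ ≃ₐ[ℚ] AlgebraicClosure ℚ)
    (P : (W₀⁄(AlgebraicClosure ℚ)).Point) : xOf (σ • P) = σ (xOf P) := by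
  rcases P with _ | ⟨x, y, h⟩
  · exact (_root_.map_zero σ).symm
  · rfl

/-! ### Step (III) -/

/-- **(III), abstract form.**  Let `A` be a valuation subring of `ℚ̄` over `p`.  Assume the
`p`-torsion is finite and satisfies the product bound `hT2` (package T2).  If `N` is a
Galois-stable submodule of the `p`-torsion with `N ≠ ⊥` and `N ≠ ⊤`, then some `p`-torsion point
is not in the kernel of reduction `E₁(A)`. -/
theorem exists_not_inE1_of (W₀ : Affine ℚ) {p : ℕ} (hp : p.Prime)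
    (A : ValuationSubring (AlgebraicClosure ℚ)) (hpA : (p : AlgebraicClosure ℚ) ∈ A.nonunits)
    (hfin : Set.Finite {P : (W₀⁄(AlgebraicClosure ℚ)).Point | p • P = 0})
    (hT2 : ∀ S : Finset (AlgebraicClosure ℚ),
      (∀ ξ ∈ S, ξ ∉ A ∧
        ∃ P : (W₀⁄(AlgebraicClosure ℚ)).Point, P ≠ 0 ∧ p • P = 0 ∧ xOf P = ξ) →
      ∃ ε ∈ A, (p : AlgebraicClosure ℚ) = ε * ∏ ξ ∈ S, ξ⁻¹)
    (N : Submodule (ZMod p) (Submodule.torsionBy ℤ (W₀⁄(AlgebraicClosure ℚ)).Point p))
    (hN : IsGaloisStable ℚ N) (hN0 : N ≠ ⊥) (hN1 : N ≠ ⊤) :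
    ∃ x : Submodule.torsionBy ℤ (W₀⁄(AlgebraicClosure ℚ)).Point p,
      ¬ S05.H60.InE1 A (x : (W₀⁄(AlgebraicClosure ℚ)).Point) := by
  classical
  by_contra hall
  push Not at hall
  have hx_notin : ∀ x : Submodule.torsionBy ℤ (W₀⁄(AlgebraicClosure ℚ)).Point p, x ≠ 0 →
      xOf (x : (W₀⁄(AlgebraicClosure ℚ)).Point) ∉ A := by
    intro x hx
    rcases hall x with h | h
    · exact absurd (Subtype.ext h) hx
    · exact h
  have htors : ∀ x : Submodule.torsionBy ℤ (W₀⁄(AlgebraicClosure ℚ)).Point p,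
      p • (x : (W₀⁄(AlgebraicClosure ℚ)).Point) = 0 := by
    intro x
    have h := x.2
    rw [Submodule.mem_torsionBy_iff] at h
    rwa [natCast_zsmul] at h
  -- the finite sets of `x`-coordinates
  have hSVfin : Set.Finite {ξ : AlgebraicClosure ℚ |
      ∃ x : Submodule.torsionBy ℤ (W₀⁄(AlgebraicClosure ℚ)).Point p,
        x ≠ 0 ∧ xOf (x : (W₀⁄(AlgebraicClosure ℚ)).Point) = ξ} := by
    refine (hfin.image xOf).subset ?_
    rintro ξ ⟨x, -, rfl⟩
    exact ⟨x.1, htors x, rfl⟩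
  have hSNsub : {ξ : AlgebraicClosure ℚ |
      ∃ x : Submodule.torsionBy ℤ (W₀⁄(AlgebraicClosure ℚ)).Point p,
        x ∈ N ∧ x ≠ 0 ∧ xOf (x : (W₀⁄(AlgebraicClosure ℚ)).Point) = ξ} ⊆
      {ξ : AlgebraicClosure ℚ |
      ∃ x : Submodule.torsionBy ℤ (W₀⁄(AlgebraicClosure ℚ)).Point p,
        x ≠ 0 ∧ xOf (x : (W₀⁄(AlgebraicClosure ℚ)).Point) = ξ} :=
    fun ξ ⟨x, _, hx0, hx⟩ => ⟨x, hx0, hx⟩
  have hSNfin := hSVfin.subset hSNsub
  set SV : Finset (AlgebraicClosure ℚ) := hSVfin.toFinset with hSV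
  set SN : Finset (AlgebraicClosure ℚ) := hSNfin.toFinset with hSN
  have hmemSV : ∀ ξ, ξ ∈ SV ↔ ∃ x : Submodule.torsionBy ℤ (W₀⁄(AlgebraicClosure ℚ)).Point p,
        x ≠ 0 ∧ xOf (x : (W₀⁄(AlgebraicClosure ℚ)).Point) = ξ := by
    intro ξ
    rw [hSV, Set.Finite.mem_toFinset]
    rfl
  have hmemSN : ∀ ξ, ξ ∈ SN ↔ ∃ x : Submodule.torsionBy ℤ (W₀⁄(AlgebraicClosure ℚ)).Point p,
        x ∈ N ∧ x ≠ 0 ∧ xOf (x : (W₀⁄(AlgebraicClosure ℚ)).Point) = ξ := by
    intro ξ
    rw [hSN, Set.Finite.mem_toFinset]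
    rfl
  have hsub : SN ⊆ SV := by
    intro ξ hξ
    rw [hmemSN] at hξ
    rw [hmemSV]
    obtain ⟨x, _, hx0, hx⟩ := hξ
    exact ⟨x, hx0, hx⟩
  -- all elements of `SV` have valuation `> 1`
  have hv_gt : ∀ ξ ∈ SV, 1 < A.valuation ξ := by
    intro ξ hξ
    rw [hmemSV] at hξ
    obtain ⟨x, hx0, rfl⟩ := hξ
    rw [← not_le, A.valuation_le_one_iff]
    exact hx_notin x hx0
  -- `SN` is Galois-stable
  have hσSN : ∀ σ : AlgebraicClosure ℚ ≃ₐ[ℚ] AlgebraicClosure ℚ, SN.image σ = SN := by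
    intro σ
    apply Finset.eq_of_subset_of_card_le
    · intro η hη
      rw [Finset.mem_image] at hη
      obtain ⟨ξ, hξ, rfl⟩ := hη
      rw [hmemSN] at hξ ⊢
      obtain ⟨x, hxN, hx0, rfl⟩ := hξ
      refine ⟨σ • x, hN σ x hxN, ?_, ?_⟩
      · intro h0
        apply hx0
        have h1 := congrArg (fun y => σ⁻¹ • y) h0
        simpa using h1
      · exact xOf_smul W₀ σ x.1
    · rw [Finset.card_image_of_injective _ σ.injective]
  have hρfix : ∀ σ : AlgebraicClosure ℚ ≃ₐ[ℚ] AlgebraicClosure ℚ,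
      σ (∏ ξ ∈ SN, ξ) = ∏ ξ ∈ SN, ξ := by
    intro σ
    rw [map_prod]
    conv_rhs => rw [← hσSN σ]
    rw [Finset.prod_image (fun a _ b _ h => σ.injective h)]
  obtain ⟨r, hr⟩ := exists_rat_of_fixed _ hρfix
  -- nonemptiness
  obtain ⟨x₁, hx₁N, hx₁0⟩ := (Submodule.ne_bot_iff N).mp hN0
  obtain ⟨x₂, hx₂N⟩ : ∃ x : Submodule.torsionBy ℤ (W₀⁄(AlgebraicClosure ℚ)).Point p, x ∉ N := by
    by_contra hne
    push Not at hne
    exact hN1 (eq_top_iff.mpr fun x _ => hne x)
  have hx₂0 : x₂ ≠ 0 := fun h => hx₂N (h ▸ N.zero_mem)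
  have hSNne : SN.Nonempty := ⟨_, (hmemSN _).mpr ⟨x₁, hx₁N, hx₁0, rfl⟩⟩
  have hdiff : (SV \ SN).Nonempty := by
    refine ⟨xOf (x₂ : (W₀⁄(AlgebraicClosure ℚ)).Point), ?_⟩
    rw [Finset.mem_sdiff]
    refine ⟨(hmemSV _).mpr ⟨x₂, hx₂0, rfl⟩, fun hmem => ?_⟩
    rw [hmemSN] at hmem
    obtain ⟨y, hyN, hy0, hxy⟩ := hmem
    have hy0' : (y : (W₀⁄(AlgebraicClosure ℚ)).Point) ≠ 0 := fun h => hy0 (Subtype.ext h)
    have hx0' : (x₂ : (W₀⁄(AlgebraicClosure ℚ)).Point) ≠ 0 := fun h => hx₂0 (Subtype.ext h)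
    rcases (xOf_eq_iff hy0' hx0').mp hxy with h | h
    · exact hx₂N ((Subtype.ext h : y = x₂) ▸ hyN)
    · have h' : x₂ = -y := by
        apply Subtype.ext
        change (x₂ : (W₀⁄(AlgebraicClosure ℚ)).Point) = -(y : (W₀⁄(AlgebraicClosure ℚ)).Point)
        rw [h, neg_neg]
      exact hx₂N (h' ▸ N.neg_mem hyN)
  -- valuations
  have hρgt : 1 < A.valuation (algebraMap ℚ (AlgebraicClosure ℚ) r) := by
    rw [hr, map_prod]
    exact one_lt_prod_of_one_lt SN _ (fun ξ hξ => hv_gt ξ (hsub hξ)) hSNne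
  have h4 := one_le_val_rat_mul A hp hpA r hρgt
  have hM : 1 < ∏ ξ ∈ SV \ SN, A.valuation ξ :=
    one_lt_prod_of_one_lt _ _ (fun ξ hξ => hv_gt ξ (Finset.mem_sdiff.mp hξ).1) hdiff
  obtain ⟨ε, hε, hpε⟩ := hT2 SV (by
    intro ξ hξ
    have hξ' := (hmemSV ξ).mp hξ
    obtain ⟨x, hx0, rfl⟩ := hξ'
    exact ⟨hx_notin x hx0, x.1, fun h => hx0 (Subtype.ext h), htors x, rfl⟩)
  have hprod_ne : ∏ ξ ∈ SV, ξ ≠ 0 := by
    rw [Finset.prod_ne_zero_iff]
    intro ξ hξ h0
    have := hv_gt ξ hξ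
    rw [h0, _root_.map_zero] at this
    exact not_lt_of_ge zero_le this
  have hε' : (p : AlgebraicClosure ℚ) * ∏ ξ ∈ SV, ξ = ε := by
    rw [hpε, Finset.prod_inv_distrib, mul_assoc, inv_mul_cancel₀ hprod_ne, mul_one]
  have hεv : A.valuation (p : AlgebraicClosure ℚ) * ∏ ξ ∈ SV, A.valuation ξ ≤ 1 := by
    rw [← map_prod, ← map_mul, hε']
    exact (A.valuation_le_one_iff _).mpr hε
  rw [← Finset.prod_sdiff hsub] at hεv
  have hρv : A.valuation (algebraMap ℚ (AlgebraicClosure ℚ) r) = ∏ ξ ∈ SN, A.valuation ξ := by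
    rw [hr, map_prod]
  rw [← hρv] at hεv
  have hfinal : (1 : A.ValueGroup) <
      A.valuation (p : AlgebraicClosure ℚ) * ((∏ ξ ∈ SV \ SN, A.valuation ξ) *
        A.valuation (algebraMap ℚ (AlgebraicClosure ℚ) r)) := by
    calc (1 : _) < ∏ ξ ∈ SV \ SN, A.valuation ξ := hM
      _ = 1 * ∏ ξ ∈ SV \ SN, A.valuation ξ := (one_mul _).symm
      _ ≤ (A.valuation (algebraMap ℚ (AlgebraicClosure ℚ) r) *
            A.valuation (p : AlgebraicClosure ℚ)) * ∏ ξ ∈ SV \ SN, A.valuation ξ := by gcongr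
      _ = _ := by
        rw [mul_comm (A.valuation (algebraMap ℚ (AlgebraicClosure ℚ) r)), mul_assoc,
          mul_comm (A.valuation (algebraMap ℚ (AlgebraicClosure ℚ) r))]
  exact not_le_of_gt hfinal hεv

/-- **(III)**, exact shape of the S13 skeleton (`Skeleton2.lean`, package III). -/
theorem exists_torsion_not_inE1 (W₀ : Affine ℚ) {p : ℕ} (hp : p.Prime) (hp2 : p ≠ 2)
    (A : ValuationSubring (AlgebraicClosure ℚ)) (hpA : (p : AlgebraicClosure ℚ) ∈ A.nonunits)
    (hfin : Set.Finite {P : (W₀⁄(AlgebraicClosure ℚ)).Point | p • P = 0})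
    (hT2 : ∀ S : Finset (AlgebraicClosure ℚ),
      (∀ ξ ∈ S, ξ ∉ A ∧
        ∃ P : (W₀⁄(AlgebraicClosure ℚ)).Point, P ≠ 0 ∧ p • P = 0 ∧ S05.xOf P = ξ) →
      ∃ ε ∈ A, (p : AlgebraicClosure ℚ) = ε * ∏ ξ ∈ S, ξ⁻¹)
    (N : Submodule (ZMod p) (Submodule.torsionBy ℤ (W₀⁄(AlgebraicClosure ℚ)).Point p))
    (hN : IsGaloisStable ℚ N) (hN0 : N ≠ ⊥) (hN1 : N ≠ ⊤) :
    ∃ x : Submodule.torsionBy ℤ (W₀⁄(AlgebraicClosure ℚ)).Point p,
      ¬ S05.H60.InE1 A (x : (W₀⁄(AlgebraicClosure ℚ)).Point) :=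
  have _ := hp2
  exists_not_inE1_of W₀ hp A hpA hfin hT2 N hN hN0 hN1

end Fermat.Agent.S13.H61
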