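/-
S13, package L2 (helper61): the ladder polynomials compute multiplication by `n` on `x`-coordinates.

For a nonzero point `Q` of a Weierstrass curve over a field (only the points of `W.Point`, i.e.
nonsingular points, are involved; no hypothesis on the discriminant), the pair
`lad W n = (X_n, Z_n)` of `Fermat.Agent.S13.H15` evaluated at `x(Q)` represents `n • Q`
projectively: `n • Q = 0 ↔ Z_n(x(Q)) = 0`, and otherwise `x(n • Q) = X_n(x(Q)) / Z_n(x(Q))`.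
In particular `(2k+1) • Q = 0 ↔ (ladD W k).eval (x(Q)) = 0`.
-/
import Fermat.Agent.S13.H15.Ladder
import Fermat.Agent.S05.AddSub

set_option autoImplicit false

namespace Fermat.Agent.S13.H61

open WeierstrassCurve Polynomial
open Fermat.Agent.S05 (xOf xOf_some xOf_neg xOf_eq_iff xOf_addsub xOf_dbl psi2_ne_zero psi2_sq_eq
  exists_some_of_ne_zero)
open Fermat.Agent.S13.H15 (lad ladD dblStep addStep addD lad_zero lad_one lad_two_mul
  lad_two_mul_add_one lad_odd_snd)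

section Generic

variable {S : Type*} [CommRing S]

/-- The duplication step on projective `x`-coordinates (values in a ring). -/
def dblG (b₂ b₄ b₆ b₈ : S) (P : S × S) : S × S :=
  (P.1 ^ 4 - b₄ * P.1 ^ 2 * P.2 ^ 2 - 2 * b₆ * P.1 * P.2 ^ 3 - b₈ * P.2 ^ 4,
   P.2 * (4 * P.1 ^ 3 + b₂ * P.1 ^ 2 * P.2 + 2 * b₄ * P.1 * P.2 ^ 2 + b₆ * P.2 ^ 3))

/-- The differential addition step on projective `x`-coordinates: `P`, `Q` represent `m • P₀`,
`(m + 1) • P₀` and `x` is the `x`-coordinate of `P₀`. -/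
def daddG (b₂ b₄ b₆ x : S) (P Q : S × S) : S × S :=
  (2 * (Q.1 * P.1) * (Q.1 * P.2 + P.1 * Q.2) + b₂ * (Q.1 * P.1) * (Q.2 * P.2)
      + b₄ * (Q.1 * P.2 + P.1 * Q.2) * (Q.2 * P.2) + b₆ * (Q.2 * P.2) ^ 2
      - x * (Q.1 * P.2 - P.1 * Q.2) ^ 2,
   (Q.1 * P.2 - P.1 * Q.2) ^ 2)

/-- Evaluation of a pair of polynomials. -/
noncomputable def evalPair (x : S) (s : S[X] × S[X]) : S × S := (s.1.eval x, s.2.eval x)

lemma evalPair_dblStep (W : WeierstrassCurve S) (x : S) (s : S[X] × S[X]) :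
    evalPair x (dblStep W s) = dblG W.b₂ W.b₄ W.b₆ W.b₈ (evalPair x s) := by
  ext
  · simp only [evalPair, dblStep, dblG, eval_sub, eval_mul, eval_pow, eval_C]
    ring
  · simp only [evalPair, dblStep, dblG, eval_add, eval_mul, eval_pow, eval_C]
    ring

lemma evalPair_addStep (W : WeierstrassCurve S) (x : S) (s t : S[X] × S[X]) :
    evalPair x (addStep W s t) = daddG W.b₂ W.b₄ W.b₆ x (evalPair x s) (evalPair x t) := by
  ext
  · simp only [evalPair, addStep, addD, daddG, eval_sub, eval_add, eval_mul, eval_pow, eval_C,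
      eval_X]
    ring
  · simp only [evalPair, addStep, addD, daddG, eval_sub, eval_mul, eval_pow]

end Generic

universe u

variable {F : Type u} [Field F] [DecidableEq F] {W : Affine F}

/-- `(ξ, ζ)` represents the point `Q` on the projective `x`-line: `(ξ : ζ) = (x(Q) : 1)` for
`Q ≠ 0`, and `(ξ : ζ) = (1 : 0)` for `Q = 0`. -/
def Rep (Q : W.Point) (p : F × F) : Prop :=
  (Q = 0 → p.2 = 0 ∧ p.1 ≠ 0) ∧ (Q ≠ 0 → p.2 ≠ 0 ∧ xOf Q * p.2 = p.1)

omit [DecidableEq F] in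
lemma rep_zero : Rep (0 : W.Point) (1, 0) :=
  ⟨fun _ => ⟨rfl, one_ne_zero⟩, fun h => absurd rfl h⟩

omit [DecidableEq F] in
lemma rep_self {P : W.Point} (hP : P ≠ 0) : Rep P (xOf P, 1) :=
  ⟨fun h => absurd h hP, fun _ => ⟨one_ne_zero, mul_one _⟩⟩

omit [DecidableEq F] in
/-- At a point of order two, the numerator of the duplication formula does not vanish. -/
lemma phi2_ne_zero {x y : F} (h : W.Nonsingular x y) (hy : y = W.negY x y) :
    x ^ 4 - W.b₄ * x ^ 2 - 2 * W.b₆ * x - W.b₈ ≠ 0 := by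
  have hd : 2 * y + W.a₁ * x + W.a₃ = 0 := by
    simp only [Affine.negY] at hy
    linear_combination hy
  rw [Affine.nonsingular_iff'] at h
  obtain ⟨hE, hns⟩ := h
  have hFx : W.a₁ * y - (3 * x ^ 2 + 2 * W.a₂ * x + W.a₄) ≠ 0 := by
    rcases hns with h1 | h1
    · exact h1
    · exact absurd hd h1
  rw [Affine.equation_iff] at hE
  have key : x ^ 4 - W.b₄ * x ^ 2 - 2 * W.b₆ * x - W.b₈ =
      (W.a₁ * y - (3 * x ^ 2 + 2 * W.a₂ * x + W.a₄)) ^ 2 := by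
    simp only [b₄, b₆, b₈]
    linear_combination (W.a₁ * (3 * x ^ 2 + 2 * W.a₂ * x + W.a₄ - W.a₁ * y)
      - (W.a₂ + 2 * x) * (2 * y + W.a₁ * x + W.a₃)) * hd + (8 * x + (W.a₁ ^ 2 + 4 * W.a₂)) * hE
  rw [key]
  exact pow_ne_zero 2 hFx

/-- The duplication step is correct. -/
lemma rep_dbl {Q : W.Point} {p : F × F} (h : Rep Q p) :
    Rep (Q + Q) (dblG W.b₂ W.b₄ W.b₆ W.b₈ p) := by
  by_cases hQ : Q = 0
  · obtain ⟨hz, hx⟩ := h.1 hQ
    subst hQ
    rw [add_zero]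
    refine ⟨fun _ => ⟨?_, ?_⟩, fun h0 => absurd rfl h0⟩
    · simp [dblG, hz]
    · have e : (dblG W.b₂ W.b₄ W.b₆ W.b₈ p).1 = p.1 ^ 4 := by
        simp only [dblG, hz]; ring
      rw [e]
      exact pow_ne_zero 4 hx
  · obtain ⟨hz, hx⟩ := h.2 hQ
    have e1 : (dblG W.b₂ W.b₄ W.b₆ W.b₈ p).1 =
        p.2 ^ 4 * (xOf Q ^ 4 - W.b₄ * xOf Q ^ 2 - 2 * W.b₆ * xOf Q - W.b₈) := by
      simp only [dblG, ← hx]; ring
    have e2 : (dblG W.b₂ W.b₄ W.b₆ W.b₈ p).2 =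
        p.2 ^ 4 * (4 * xOf Q ^ 3 + W.b₂ * xOf Q ^ 2 + 2 * W.b₄ * xOf Q + W.b₆) := by
      simp only [dblG, ← hx]; ring
    by_cases h2 : Q + Q = 0
    · obtain ⟨x, y, hns, rfl⟩ := exists_some_of_ne_zero hQ
      have hy : y = W.negY x y := by
        by_contra hy
        rw [Affine.Point.add_self_of_Y_ne hy] at h2
        exact Affine.Point.some_ne_zero _ h2
      refine ⟨fun _ => ⟨?_, ?_⟩, fun h0 => absurd h2 h0⟩
      · rw [e2, xOf_some, psi2_sq_eq hns.1, ← hy, sub_self]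
        ring
      · rw [e1, xOf_some]
        exact mul_ne_zero (pow_ne_zero 4 hz) (phi2_ne_zero hns hy)
    · refine ⟨fun h0 => absurd h0 h2, fun _ => ⟨?_, ?_⟩⟩
      · rw [e2]
        exact mul_ne_zero (pow_ne_zero 4 hz) (psi2_ne_zero hQ h2)
      · rw [e1, e2]
        have := xOf_dbl hQ h2
        linear_combination p.2 ^ 4 * this

/-- The differential addition step is correct. -/
lemma rep_dadd {Q₁ Q₂ P₀ : W.Point} (hP₀ : P₀ ≠ 0) (hsub : Q₂ - Q₁ = P₀) {p₁ p₂ : F × F}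
    (h₁ : Rep Q₁ p₁) (h₂ : Rep Q₂ p₂) :
    Rep (Q₁ + Q₂) (daddG W.b₂ W.b₄ W.b₆ (xOf P₀) p₁ p₂) := by
  by_cases hQ₁ : Q₁ = 0
  · obtain ⟨hz₁, hx₁⟩ := h₁.1 hQ₁
    have hQ₂ : Q₂ = P₀ := by rw [← hsub, hQ₁, sub_zero]
    have hQ₂0 : Q₂ ≠ 0 := hQ₂ ▸ hP₀
    obtain ⟨hz₂, hx₂⟩ := h₂.2 hQ₂0
    rw [hQ₁, zero_add]
    have e1 : (daddG W.b₂ W.b₄ W.b₆ (xOf P₀) p₁ p₂).1 = xOf Q₂ * (p₁.1 * p₂.2) ^ 2 := by
      simp only [daddG, hz₁, ← hx₂, hQ₂]; ring
    have e2 : (daddG W.b₂ W.b₄ W.b₆ (xOf P₀) p₁ p₂).2 = (p₁.1 * p₂.2) ^ 2 := by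
      simp only [daddG, hz₁]; ring
    refine ⟨fun h0 => absurd h0 hQ₂0, fun _ => ⟨?_, ?_⟩⟩
    · rw [e2]
      exact pow_ne_zero 2 (mul_ne_zero hx₁ hz₂)
    · rw [e1, e2]
  · by_cases hQ₂ : Q₂ = 0
    · have hQ₁' : Q₁ = -P₀ := by rw [← hsub, hQ₂, zero_sub, neg_neg]
      obtain ⟨hz₂, hx₂⟩ := h₂.1 hQ₂
      obtain ⟨hz₁, hx₁⟩ := h₁.2 hQ₁
      have hxQ₁ : xOf P₀ = xOf Q₁ := by rw [hQ₁', xOf_neg]
      rw [hQ₂, add_zero]
      have e1 : (daddG W.b₂ W.b₄ W.b₆ (xOf P₀) p₁ p₂).1 = xOf Q₁ * (p₂.1 * p₁.2) ^ 2 := by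
        simp only [daddG, hz₂, ← hx₁, hxQ₁]; ring
      have e2 : (daddG W.b₂ W.b₄ W.b₆ (xOf P₀) p₁ p₂).2 = (p₂.1 * p₁.2) ^ 2 := by
        simp only [daddG, hz₂]; ring
      refine ⟨fun h0 => absurd h0 hQ₁, fun _ => ⟨?_, ?_⟩⟩
      · rw [e2]
        exact pow_ne_zero 2 (mul_ne_zero hx₂ hz₁)
      · rw [e1, e2]
    · obtain ⟨hz₁, hx₁⟩ := h₁.2 hQ₁
      obtain ⟨hz₂, hx₂⟩ := h₂.2 hQ₂
      have e2 : (daddG W.b₂ W.b₄ W.b₆ (xOf P₀) p₁ p₂).2 =
          (p₁.2 * p₂.2) ^ 2 * (xOf Q₂ - xOf Q₁) ^ 2 := by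
        simp only [daddG, ← hx₁, ← hx₂]; ring
      have e1 : (daddG W.b₂ W.b₄ W.b₆ (xOf P₀) p₁ p₂).1 =
          (p₁.2 * p₂.2) ^ 2 * (2 * (xOf Q₂ + xOf Q₁) * (xOf Q₂ * xOf Q₁)
            + W.b₂ * (xOf Q₂ * xOf Q₁) + W.b₄ * (xOf Q₂ + xOf Q₁) + W.b₆
            - xOf P₀ * (xOf Q₂ - xOf Q₁) ^ 2) := by
        simp only [daddG, ← hx₁, ← hx₂]; ring
      by_cases hx : xOf Q₂ = xOf Q₁
      · have hneg : Q₂ = -Q₁ := by
          rcases (xOf_eq_iff hQ₂ hQ₁).mp hx with h | h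
          · exfalso
            apply hP₀
            rw [← hsub, h, sub_self]
          · exact h
        have hsum : Q₁ + Q₂ = 0 := by rw [hneg, add_neg_cancel]
        have h2 : Q₁ + Q₁ ≠ 0 := by
          intro h2
          apply hP₀
          rw [← hsub, hneg, ← neg_add', h2, neg_zero]
        refine ⟨fun _ => ⟨?_, ?_⟩, fun h0 => absurd hsum h0⟩
        · rw [e2, hx, sub_self]
          ring
        · rw [e1, hx, sub_self]
          have h3 := psi2_ne_zero hQ₁ h2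
          have e : 2 * (xOf Q₁ + xOf Q₁) * (xOf Q₁ * xOf Q₁) + W.b₂ * (xOf Q₁ * xOf Q₁)
              + W.b₄ * (xOf Q₁ + xOf Q₁) + W.b₆ - xOf P₀ * 0 ^ 2 =
              4 * xOf Q₁ ^ 3 + W.b₂ * xOf Q₁ ^ 2 + 2 * W.b₄ * xOf Q₁ + W.b₆ := by ring
          rw [e]
          exact mul_ne_zero (pow_ne_zero 2 (mul_ne_zero hz₁ hz₂)) h3
      · obtain ⟨hadd, -, -, hsumf⟩ := xOf_addsub hQ₂ hQ₁ hx
        rw [hsub] at hsumf
        have hadd' : Q₁ + Q₂ ≠ 0 := by rwa [add_comm]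
        refine ⟨fun h0 => absurd h0 hadd', fun _ => ⟨?_, ?_⟩⟩
        · rw [e2]
          exact mul_ne_zero (pow_ne_zero 2 (mul_ne_zero hz₁ hz₂))
            (pow_ne_zero 2 (sub_ne_zero.mpr hx))
        · rw [e1, e2, add_comm Q₁ Q₂]
          linear_combination (p₁.2 * p₂.2) ^ 2 * hsumf

/-- **Correctness of the ladder**: `lad W k` evaluated at `x(P₀)` represents `k • P₀`. -/
theorem rep_lad {P₀ : W.Point} (hP₀ : P₀ ≠ 0) (k : ℕ) :
    Rep (k • P₀) (evalPair (xOf P₀) (lad W k)) := by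
  induction k using Nat.strong_induction_on with
  | _ k ih =>
    rcases Nat.even_or_odd' k with ⟨m, rfl | rfl⟩
    · rcases Nat.eq_zero_or_pos m with rfl | hm
      · simpa [evalPair] using rep_zero
      · rw [lad_two_mul, evalPair_dblStep, two_mul, add_nsmul]
        exact rep_dbl (ih m (by omega))
    · rcases Nat.eq_zero_or_pos m with rfl | hm
      · simpa [evalPair] using rep_self hP₀
      · rw [lad_two_mul_add_one, evalPair_addStep]
        have e : (2 * m + 1) • P₀ = m • P₀ + (m + 1) • P₀ := by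
          rw [← add_nsmul]
          congr 1
          ring
        rw [e]
        exact rep_dadd hP₀ (by rw [succ_nsmul]; abel) (ih m (by omega)) (ih (m + 1) (by omega))

end Fermat.Agent.S13.H61

namespace Fermat.Agent.S13.H61

open WeierstrassCurve Polynomial
open Fermat.Agent.S05 (xOf xOf_some)
open Fermat.Agent.S13.H15 (lad ladD lad_odd_snd)

/-- **L2, the ladder specification** (interface of helper15's #678): for a nonzero point `Q`,
`Z_n(x(Q)) = 0 ↔ n • Q = 0` (then `X_n(x(Q)) ≠ 0`), and otherwise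
`x(n • Q) · Z_n(x(Q)) = X_n(x(Q))`. -/
theorem lad_spec {K : Type*} [Field K] [DecidableEq K] (W : WeierstrassCurve.Affine K)
    {Q : W.Point} (hQ : Q ≠ 0) (n : ℕ) :
    (n • Q = 0 → (lad W n).2.eval (xOf Q) = 0 ∧ (lad W n).1.eval (xOf Q) ≠ 0) ∧
    (n • Q ≠ 0 → (lad W n).2.eval (xOf Q) ≠ 0 ∧
      xOf (n • Q) * (lad W n).2.eval (xOf Q) = (lad W n).1.eval (xOf Q)) :=
  rep_lad hQ n

/-- `n • Q = 0` iff the denominator polynomial `Z_n` vanishes at `x(Q)`. -/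
theorem nsmul_eq_zero_iff_lad_snd {K : Type*} [Field K] [DecidableEq K]
    (W : WeierstrassCurve.Affine K) {Q : W.Point} (hQ : Q ≠ 0) (n : ℕ) :
    n • Q = 0 ↔ (lad W n).2.eval (xOf Q) = 0 := by
  have h := lad_spec W hQ n
  constructor
  · exact fun h0 => (h.1 h0).1
  · intro hz
    by_contra h0
    exact (h.2 h0).1 hz

/-- **L2, the torsion criterion**: `(2k+1) • Q = 0` iff `ladD W k` vanishes at `x(Q)`. -/
theorem nsmul_eq_zero_iff_ladD {K : Type*} [Field K] [DecidableEq K]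
    (W : WeierstrassCurve.Affine K) {Q : W.Point} (hQ : Q ≠ 0) (k : ℕ) :
    (2 * k + 1) • Q = 0 ↔ (ladD W k).eval (xOf Q) = 0 := by
  rw [nsmul_eq_zero_iff_lad_snd W hQ, lad_odd_snd, eval_pow]
  exact pow_eq_zero_iff (by norm_num)

/-- The torsion criterion in coordinates. -/
theorem nsmul_some_eq_zero_iff_ladD {K : Type*} [Field K] [DecidableEq K]
    (W : WeierstrassCurve.Affine K) {x y : K} (h : W.Nonsingular x y) (k : ℕ) :
    (2 * k + 1) • Affine.Point.some x y h = 0 ↔ (ladD W k).eval x = 0 := by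
  have := nsmul_eq_zero_iff_ladD W (Affine.Point.some_ne_zero h) k
  rwa [xOf_some] at this

/-- If `n • Q ≠ 0` then `x(n • Q) · Z_n(x(Q)) = X_n(x(Q))`. -/
theorem xOf_nsmul_mul_lad_snd {K : Type*} [Field K] [DecidableEq K]
    (W : WeierstrassCurve.Affine K) {Q : W.Point} (hQ : Q ≠ 0) {n : ℕ} (hn : n • Q ≠ 0) :
    xOf (n • Q) * (lad W n).2.eval (xOf Q) = (lad W n).1.eval (xOf Q) :=
  ((lad_spec W hQ n).2 hn).2

/-- If `n • Q = 0` then the numerator polynomial `X_n` does not vanish at `x(Q)`. -/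
theorem lad_fst_eval_ne_zero {K : Type*} [Field K] [DecidableEq K]
    (W : WeierstrassCurve.Affine K) {Q : W.Point} (hQ : Q ≠ 0) {n : ℕ} (hn : n • Q = 0) :
    (lad W n).1.eval (xOf Q) ≠ 0 :=
  ((lad_spec W hQ n).1 hn).2

end Fermat.Agent.S13.H61
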