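/-
S13, package LC-(III), final form (helper61): `exists_not_inE1` with the finiteness and the product
bound discharged by the landed package T (`Fermat.Agent.S13.H56.TorsionFinal`).
-/
import Fermat.Agent.S13.H61.AllE1
import Fermat.Agent.S13.H56.TorsionFinal

set_option autoImplicit false

namespace Fermat.Agent.S13.H61

open WeierstrassCurve WeierstrassCurve.Affine WeierstrassCurve.Affine.Point

/-- **(III).**  Let `W₀` be a Weierstrass curve over `ℚ`, `p` an odd prime and `A` a valuation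
subring of `ℚ̄` over `p` containing the coefficients of `W₀`.  If `N` is a Galois-stable submodule
of the `p`-torsion with `N ≠ ⊥` and `N ≠ ⊤`, then some `p`-torsion point is not in the kernel of
reduction `E₁(A)`. -/
theorem exists_not_inE1 (W₀ : Affine ℚ) {p : ℕ} (hp : p.Prime) (hp2 : p ≠ 2)
    (A : ValuationSubring (AlgebraicClosure ℚ)) (hpA : (p : AlgebraicClosure ℚ) ∈ A.nonunits)
    (ha₁ : algebraMap ℚ (AlgebraicClosure ℚ) W₀.a₁ ∈ A)
    (ha₂ : algebraMap ℚ (AlgebraicClosure ℚ) W₀.a₂ ∈ A)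
    (ha₃ : algebraMap ℚ (AlgebraicClosure ℚ) W₀.a₃ ∈ A)
    (ha₄ : algebraMap ℚ (AlgebraicClosure ℚ) W₀.a₄ ∈ A)
    (ha₆ : algebraMap ℚ (AlgebraicClosure ℚ) W₀.a₆ ∈ A)
    (N : Submodule (ZMod p) (Submodule.torsionBy ℤ (W₀⁄(AlgebraicClosure ℚ)).Point p))
    (hN : IsGaloisStable ℚ N) (hN0 : N ≠ ⊥) (hN1 : N ≠ ⊤) :
    ∃ x : Submodule.torsionBy ℤ (W₀⁄(AlgebraicClosure ℚ)).Point p,
      ¬ S05.H60.InE1 A (x : (W₀⁄(AlgebraicClosure ℚ)).Point) :=
  exists_not_inE1_of W₀ hp A hpA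
    (Fermat.Agent.S13.H56.card_torsion_le' (W₀⁄(AlgebraicClosure ℚ)) hp hp2).1
    (fun S hS => Fermat.Agent.S13.H56.prod_inv_dvd_prime' (W₀⁄(AlgebraicClosure ℚ)) A
      ha₁ ha₂ ha₃ ha₄ ha₆ hp hp2 S hS)
    N hN hN0 hN1

end Fermat.Agent.S13.H61
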